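import Fermat.Agent.MultSupport.Main

/-!
# The support problem over the rationals

If every prime dividing `a ^ n - 1` divides `b ^ n - 1` then `b` is a power of `a`.
-/

set_option autoImplicit false
set_option linter.unusedSectionVars false

noncomputable section

open NumberField IsDedekindDomain
open FA.HasseCyclic (nearOne)

namespace FA.MultSupport

/-- A natural number in a prime ideal has a prime factor there. -/
theorem exists_prime_factor_mem {R : Type*} [CommRing R] (P : Ideal R) [P.IsPrime] :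
    ∀ N : ℕ, N ≠ 0 → (N : R) ∈ P → ∃ p : ℕ, p.Prime ∧ p ∣ N ∧ (p : R) ∈ P := by
  intro N
  induction N using Nat.recOnMul with
  | zero => exact fun h => absurd rfl h
  | one => exact fun _ h => absurd (by rwa [Nat.cast_one] at h) (Ideal.IsPrime.one_notMem ‹_›)
  | prime p hp => exact fun _ h => ⟨p, hp, dvd_rfl, h⟩
  | mul a b iha ihb =>
    intro h0 h
    rw [Nat.cast_mul] at h
    rcases Ideal.IsPrime.mem_or_mem ‹_› h with h | h
    · obtain ⟨p, hp, hd, hmem⟩ := iha (left_ne_zero_of_mul h0) h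
      exact ⟨p, hp, hd.mul_right b, hmem⟩
    · obtain ⟨p, hp, hd, hmem⟩ := ihb (right_ne_zero_of_mul h0) h
      exact ⟨p, hp, hd.mul_left a, hmem⟩

theorem natCast_pow_mem_nearOne {v : HeightOneSpectrum (𝓞 ℚ)} {c : ℕ} (hc : 1 ≤ c) {z : ℚˣ}
    (hz : (z : ℚ) = c) (n : ℕ) :
    z ^ n ∈ nearOne v 0 ↔ ((c ^ n - 1 : ℕ) : 𝓞 ℚ) ∈ v.asIdeal := by
  rw [mem_nearOne_zero_iff, Units.val_pow_eq_pow_val, hz,
    show (c : ℚ) ^ n - 1 = algebraMap (𝓞 ℚ) ℚ ((c ^ n - 1 : ℕ) : 𝓞 ℚ) by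
      rw [map_natCast, Nat.cast_sub (Nat.one_le_pow _ _ hc), Nat.cast_pow, Nat.cast_one],
    v.valuation_of_algebraMap, v.intValuation_lt_one_iff_mem]

/-- **Erdős's question.** -/
theorem exists_eq_pow_of_forall_prime_dvd {a b : ℕ} (ha : 2 ≤ a) (hb : 2 ≤ b)
    (h : ∀ n p : ℕ, p.Prime → p ∣ a ^ n - 1 → p ∣ b ^ n - 1) : ∃ k : ℕ, b = a ^ k := by
  have ha0 : (a : ℚ) ≠ 0 := by positivity
  have hb0 : (b : ℚ) ≠ 0 := by positivity
  have hsupp : SupportAE (Units.mk0 (a : ℚ) ha0) (Units.mk0 (b : ℚ) hb0) := by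
    refine ⟨∅, Set.finite_empty, fun v _ n hn => ?_⟩
    rw [natCast_pow_mem_nearOne (by omega) (Units.val_mk0 _)] at hn ⊢
    rcases Nat.eq_zero_or_pos n with rfl | hn0
    · simp
    obtain ⟨p, hp, hpd, hmem⟩ := exists_prime_factor_mem v.asIdeal _
      (Nat.sub_ne_zero_of_lt (Nat.one_lt_pow hn0.ne' ha)) hn
    obtain ⟨q, hq⟩ := h n p hp hpd
    rw [hq, Nat.cast_mul]
    exact Ideal.mul_mem_right _ _ hmem
  obtain ⟨k, hk⟩ := hsupp.exists_eq_zpow
  have hk' : (b : ℚ) = (a : ℚ) ^ k := by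
    have := congrArg Units.val hk
    rwa [Units.val_mk0, Units.val_zpow_eq_zpow_val, Units.val_mk0] at this
  rcases le_or_gt 0 k with hk0 | hk0
  · lift k to ℕ using hk0
    exact ⟨k, by exact_mod_cast hk'⟩
  · have h1 : (a : ℚ) ^ k ≤ 1 := zpow_le_one_of_nonpos₀ (by exact_mod_cast by omega) hk0.le
    have h2 : (2 : ℚ) ≤ b := by exact_mod_cast hb
    linarith

end FA.MultSupport

end
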