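import Fermat.Agent.MultSupport.Residue
import Fermat.Agent.LocalCFT.Powers
import Mathlib.FieldTheory.Galois.Infinite

/-!
# The Kummer step

If congruences `x ^ n ≡ 1` imply `y ^ n ≡ 1` almost everywhere, then `y` is an `N`-th power residue
almost everywhere in `K(ζ_N, x^(1/N))`, so a power there; by Kummer theory some `y / x ^ a` is one
in `K(ζ_N)`, and the descent from the tower bounds the root of unity left over.
-/

set_option autoImplicit false

noncomputable section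

open NumberField IsDedekindDomain IntermediateField
open FA.ArtinRec FA.LocalCFT
open FA.HasseCyclic (nearOne)

namespace FA.MultSupport

universe u

variable {K : Type u} [Field K] [NumberField K]

/-- Congruences for `x` imply those for `y` at almost every prime. -/
def SupportAE (x y : Kˣ) : Prop :=
  ∃ B : Set (HeightOneSpectrum (𝓞 K)), B.Finite ∧
    ∀ v ∉ B, ∀ n : ℕ, x ^ n ∈ nearOne v 0 → y ^ n ∈ nearOne v 0

variable {x y : Kˣ}

/-- Where `x` is an `N`-th power, `y` is a residue almost everywhere. -/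
theorem SupportAE.isResidueAE (h : SupportAE x y) {M : Type*} [Field M] [NumberField M]
    [Algebra K M] {N : ℕ} [NeZero N] [HasEnoughRootsOfUnity M N] {r : Mˣ}
    (hr : r ^ N = baseU x) : IsResidueAE N (baseU (L := M) y) := by
  classical
  obtain ⟨B, hB, hxy⟩ := h
  refine ⟨↑(primesAbove M hB.toFinset) ∪ {Q | ord Q r ≠ 0} ∪
      {Q | ord Q (baseU (L := M) y) ≠ 0} ∪ {Q | (N : 𝓞 M) ∈ Q.asIdeal}, ?_, fun Q hQ => ?_⟩
  · exact (((primesAbove M hB.toFinset).finite_toSet.union (finite_ord_ne_zero _)).union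
      (finite_ord_ne_zero _)).union ((Ideal.finite_factors (I := Ideal.span {(N : 𝓞 M)})
        (by simpa using NeZero.ne N)).subset fun Q hQ => Ideal.dvd_span_singleton.2 hQ)
  simp only [Set.mem_union, Finset.mem_coe, mem_primesAbove, Set.Finite.mem_toFinset,
    Set.mem_ofPred_eq, not_or, not_not] at hQ
  obtain ⟨⟨⟨hQB, hQr⟩, hQy⟩, hQN⟩ := hQ
  have hN := dvd_card_units hQN
  refine exists_pow_congr hN (NeZero.ne N) hQy ?_
  rw [← map_pow, baseU_mem_nearOne_iff]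
  refine hxy _ hQB _ ((baseU_mem_nearOne_iff (Q := Q) _).1 ?_)
  rw [map_pow, ← hr, ← pow_mul, Nat.mul_div_cancel' hN]
  exact pow_card_units_mem_nearOne hQr

variable (ℓ : ℕ) [hℓ : Fact ℓ.Prime]

local notation "Ω" => AlgebraicClosure K

/-- **Kummer**: some `y / x ^ a` is a power in the tower. -/
theorem SupportAE.exists_root_tower (h : SupportAE x y) (k : ℕ) :
    ∃ a : ℤ, ∃ f : tower K ℓ k, f ^ ℓ ^ k = algebraMap K (tower K ℓ k) ((y / x ^ a : Kˣ) : K) := by
  classical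
  set N := ℓ ^ k
  set F := tower K ℓ k
  have : NeZero N := ⟨pow_ne_zero k hℓ.out.ne_zero⟩
  have hN : 0 < N := NeZero.pos N
  obtain ⟨r, hr⟩ := IsAlgClosed.exists_pow_nat_eq (algebraMap K Ω (x : K)) hN
  have hr0 : r ≠ 0 := fun h0 => x.ne_zero ((map_eq_zero (algebraMap K Ω)).1
    (by rw [← hr, h0, zero_pow hN.ne']))
  let M : IntermediateField F Ω := F⟮r⟯
  have : FiniteDimensional F M := adjoin.finiteDimensional (Algebra.IsIntegral.isIntegral r)
  have : NumberField M := NumberField.of_module_finite F M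
  have : HasEnoughRootsOfUnity M N :=
    ⟨⟨_, (towerGen_spec K ℓ k).map_of_injective (f := algebraMap F M)
      (algebraMap F M).injective⟩, inferInstance⟩
  let rM : Mˣ := Units.mk0 ⟨r, mem_adjoin_simple_self F r⟩ fun h0 => hr0 (congrArg Subtype.val h0)
  have hrM : rM ^ N = baseU x := Units.ext (Subtype.ext hr)
  obtain ⟨z, hz⟩ := (h.isResidueAE hrM).exists_root M
  have hzy : (z : Ω) ^ N = algebraMap K Ω (y : K) := congrArg Subtype.val hz
  have hz0 : (z : Ω) ≠ 0 := fun h0 => y.ne_zero ((map_eq_zero (algebraMap K Ω)).1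
    (by rw [← hzy, h0, zero_pow hN.ne']))
  -- the two Kummer characters
  have : IsGalois K Ω := { }
  have : IsGalois F Ω := IsGalois.tower_top_of_isGalois K F Ω
  have hfix : ∀ (σ : Ω ≃ₐ[F] Ω) (ζ : Ω), ζ ^ N = 1 → σ ζ = ζ := fun σ ζ hζ =>
    σ.commutes ⟨ζ, mem_tower_of_pow_eq_one K ℓ hζ⟩
  have hK : ∀ (σ : Ω ≃ₐ[F] Ω) (c : K), σ (algebraMap K Ω c) = algebraMap K Ω c := fun σ c => by
    rw [IsScalarTower.algebraMap_apply K F Ω, σ.commutes]
  have hroot : ∀ (σ : Ω ≃ₐ[F] Ω) {s : Ω} {c : Kˣ}, s ^ N = algebraMap K Ω (c : K) →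
      (σ s / s) ^ N = 1 := fun σ {s c} hs => by
    rw [div_pow, ← map_pow, hs, hK, div_self ((map_ne_zero _).2 c.ne_zero)]
  let χ : (Ω ≃ₐ[F] Ω) →* Ωˣ := MonoidHom.mk'
    (fun σ => Units.mk0 (σ r / r) (div_ne_zero ((map_ne_zero σ).2 hr0) hr0))
    fun σ τ => Units.ext (by
      show (σ * τ) r / r = σ r / r * (τ r / r)
      conv_lhs => rw [AlgEquiv.mul_apply, show τ r = τ r / r * r from (div_mul_cancel₀ _ hr0).symm,
        map_mul, hfix σ _ (hroot τ hr)]
      ring)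
  have hχ : ∀ σ, χ σ ^ N = 1 := fun σ => Units.ext (by
    rw [Units.val_pow_eq_pow_val, Units.val_one]; exact hroot σ hr)
  -- on `r` determines on `z`
  have hdet : ∀ σ τ : Ω ≃ₐ[F] Ω, σ r = τ r → σ (z : Ω) = τ (z : Ω) := fun σ τ hστ => by
    have hle : σ.toAlgHom.comp M.val = τ.toAlgHom.comp M.val :=
      (adjoin.powerBasis (Algebra.IsIntegral.isIntegral r)).algHom_ext hστ
    exact DFunLike.congr_fun hle z
  have hsub : χ.range ≤ rootsOfUnity N Ω := by
    rintro _ ⟨σ, rfl⟩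
    exact hχ σ
  have : IsCyclic χ.range :=
    isCyclic_of_injective (Subgroup.inclusion hsub) (Subgroup.inclusion_injective hsub)
  obtain ⟨⟨g, σ₀, hσ₀⟩, hg⟩ := IsCyclic.exists_generator (α := χ.range)
  obtain ⟨c₀, hc₀⟩ : ∃ c : Ω, c = σ₀ (z : Ω) / z := ⟨_, rfl⟩
  have hc₀N : c₀ ^ N = 1 := hc₀ ▸ hroot σ₀ hzy
  have hd : 0 < orderOf g := orderOf_pos_iff.2
    (isOfFinOrder_iff_pow_eq_one.2 ⟨N, hN, by rw [← hσ₀]; exact hχ σ₀⟩)
  have hiter : ∀ t : ℕ, (σ₀ ^ t) (z : Ω) = c₀ ^ t * z := fun t => by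
    induction t with
    | zero => simp
    | succ t ih => rw [pow_succ', AlgEquiv.mul_apply, ih, map_mul,
        hfix σ₀ _ (by rw [← pow_mul, mul_comm, pow_mul, hc₀N, one_pow]), hc₀, pow_succ,
        mul_assoc, div_mul_cancel₀ _ hz0]
  have hrpow : ∀ t : ℕ, (σ₀ ^ t) r = ((g ^ t : Ωˣ) : Ω) * r := fun t => by
    rw [← hσ₀, ← map_pow]
    exact (div_mul_cancel₀ _ hr0).symm
  have hc₀d : c₀ ^ orderOf g = 1 := by
    have h1 := hdet (σ₀ ^ orderOf g) 1 (by
      rw [hrpow, pow_orderOf_eq_one, Units.val_one, one_mul, AlgEquiv.one_apply])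
    rw [hiter, AlgEquiv.one_apply] at h1
    exact mul_right_cancel₀ hz0 (h1.trans (one_mul _).symm)
  have : NeZero (orderOf g) := ⟨hd.ne'⟩
  obtain ⟨a, -, ha⟩ := ((IsPrimitiveRoot.coe_units_iff).2
    (IsPrimitiveRoot.orderOf g)).eq_pow_of_pow_eq_one hc₀d
  -- the quotient is fixed
  have hfixed : ∀ σ : Ω ≃ₐ[F] Ω, σ ((z : Ω) / r ^ a) = (z : Ω) / r ^ a := fun σ => by
    obtain ⟨i, hi⟩ := Subgroup.mem_zpowers_iff.1 (hg ⟨χ σ, σ, rfl⟩)
    have hi' : g ^ i = χ σ := congrArg Subtype.val hi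
    obtain ⟨t, ht⟩ : ∃ t : ℕ, g ^ t = χ σ := by
      refine ⟨(i % (orderOf g : ℤ)).toNat, ?_⟩
      rw [← zpow_natCast, Int.toNat_of_nonneg (Int.emod_nonneg _ (by omega)), zpow_mod_orderOf, hi']
    have hσr : σ r = (σ₀ ^ t) r := by
      rw [hrpow, ht]
      exact (div_mul_cancel₀ _ hr0).symm
    rw [map_div₀, map_pow, hdet σ _ hσr, hσr, hiter, hrpow, ← ha, Units.val_pow_eq_pow_val,
      mul_pow, ← pow_mul, ← pow_mul, mul_comm a t]
    exact mul_div_mul_left _ _ (pow_ne_zero _ (Units.ne_zero g))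
  obtain ⟨f, hf⟩ := (InfiniteGalois.mem_bot_iff_fixed _).2 hfixed
  refine ⟨a, f, Subtype.ext ?_⟩
  have hf' : (f : Ω) = (z : Ω) / r ^ a := hf
  show (f : Ω) ^ N = algebraMap K Ω ((y / x ^ (a : ℤ) : Kˣ) : K)
  rw [hf', div_pow, hzy, ← pow_mul, mul_comm, pow_mul, hr, zpow_natCast, Units.val_div_eq_div_val,
    map_div₀, Units.val_pow_eq_pow_val, map_pow]

/-- **The step**: `y` is a power of `x` up to a small root of unity and a large power. -/
theorem SupportAE.exists_eq_mul (h : SupportAE x y) {k : ℕ} (hk : Module.finrank ℚ K < k) :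
    ∃ (a : ℤ) (ξ w : Kˣ), ξ ^ ℓ ^ Module.finrank ℚ K = 1 ∧
      y = ξ * x ^ a * w ^ ℓ ^ (k - Module.finrank ℚ K) := by
  obtain ⟨a, hf⟩ := h.exists_root_tower ℓ k
  obtain ⟨e, he, w, hw⟩ := exists_pow_descent ℓ hk hf
  refine ⟨a, y / x ^ a / w ^ ℓ ^ (k - e), w ^ ℓ ^ (Module.finrank ℚ K - e), ?_, ?_⟩
  · obtain ⟨i, hi⟩ := Nat.exists_eq_add_of_le he
    rw [hi, pow_add, pow_mul, div_pow _ (w ^ _), hw, ← pow_mul w, ← pow_add,
      Nat.sub_add_cancel (by omega), div_self', one_pow]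
  · rw [← pow_mul w, ← pow_add, show Module.finrank ℚ K - e + (k - Module.finrank ℚ K) = k - e by
      omega, mul_right_comm, div_mul_cancel, div_mul_cancel]

end FA.MultSupport

end
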