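import Fermat.Agent.MultSupport.Kummer
import Fermat.Agent.GrunwaldWang.Classes
import Fermat.Agent.Roth.Field.UnitEquation
import Fermat.Agent.ArtinReciprocity.Frobenius
import Mathlib.RingTheory.Filtration

/-!
# The support problem

Corrales-Rodrigáñez and Schoof: if congruences `x ^ n ≡ 1` imply `y ^ n ≡ 1` at almost every
prime then `y` is a power of `x`. The Kummer step and Krull's intersection theorem in the finitely
generated group of units outside a finite set leave only a root of unity, which the unit equation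
removes.
-/

set_option autoImplicit false
set_option linter.unusedSectionVars false

noncomputable section

open NumberField IsDedekindDomain WithZero
open FA.ArtinRec
open FA.HasseCyclic (nearOne mem_nearOne)

namespace FA.MultSupport

universe u

variable {K : Type u} [Field K] [NumberField K]

/-- Congruence to `1` modulo a prime. -/
theorem mem_nearOne_zero_iff {v : HeightOneSpectrum (𝓞 K)} {z : Kˣ} :
    z ∈ nearOne v 0 ↔ v.valuation K ((z : K) - 1) < 1 := by
  rw [mem_nearOne]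
  by_cases h : (z : K) - 1 = 0
  · simp [h]
  · obtain ⟨d, hd⟩ : ∃ d : Kˣ, (d : K) = (z : K) - 1 := ⟨Units.mk0 _ h, rfl⟩
    rw [← hd, valuation_eq_exp, exp_le_exp, ← exp_zero, exp_lt_exp]
    omega

/-- Only `1` is congruent to `1` at almost every prime. -/
theorem eq_one_of_ae {z : Kˣ} {B : Set (HeightOneSpectrum (𝓞 K))} (hB : B.Finite)
    (h : ∀ v ∉ B, z ∈ nearOne v 0) : z = 1 := by
  by_contra hz
  obtain ⟨d, hd⟩ : ∃ d : Kˣ, (d : K) = (z : K) - 1 :=
    ⟨Units.mk0 _ (sub_ne_zero.2 fun h1 => hz (Units.ext h1)), rfl⟩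
  have hinf := infinite_artinAt (K := K) (L := K) (1 : K ≃ₐ[K] K)
  obtain ⟨v, -, hv⟩ := hinf.exists_notMem_finite (hB.union (finite_ord_ne_zero d))
  simp only [Set.mem_union, Set.mem_ofPred_eq, not_or, not_not] at hv
  have h1 := mem_nearOne_zero_iff.1 (h v hv.1)
  rw [← hd, (ord_eq_iff (v := v)).1 hv.2, neg_zero, exp_zero] at h1
  exact lt_irrefl _ h1

/-- **Krull's intersection theorem** in a finitely generated abelian group. -/
theorem exists_zpow_eq_one {G : Type*} [CommGroup G] [Group.FG G] {ℓ : ℕ} (hℓ : ℓ.Prime) (g : G)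
    (h : ∀ i : ℕ, ∃ w : G, g = w ^ ℓ ^ (i + 1)) : ∃ m : ℤ, ¬ (ℓ : ℤ) ∣ m ∧ g ^ m = 1 := by
  have : Module.Finite ℤ (Additive G) := Module.Finite.iff_addGroup_fg.2 inferInstance
  set q := Additive.ofMul g with hq
  have hmem : q ∈ (⨅ i : ℕ, Ideal.span {(ℓ : ℤ)} ^ i • ⊤ : Submodule ℤ (Additive G)) := by
    refine (Submodule.mem_iInf _).2 fun i => ?_
    obtain ⟨w, hw⟩ := h i
    rw [show q = ((ℓ : ℤ) ^ (i + 1)) • Additive.ofMul w by
      rw [hq, hw, ← Nat.cast_pow, natCast_zsmul, ofMul_pow]]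
    refine Submodule.smul_mem_smul ?_ Submodule.mem_top
    rw [pow_succ]
    exact Ideal.mul_mem_right _ _ (Ideal.pow_mem_pow (Ideal.mem_span_singleton_self _) i)
  obtain ⟨⟨r, hr⟩, hrq⟩ := (Ideal.mem_iInf_smul_pow_eq_bot_iff _ q).1 hmem
  refine ⟨1 - r, fun hd => ?_, ?_⟩
  · have h1 := dvd_add hd (Ideal.mem_span_singleton.1 hr)
    rw [sub_add_cancel] at h1
    exact hℓ.one_lt.ne' (by exact_mod_cast Int.eq_one_of_dvd_one (by positivity) h1)
  · have h0 : (1 - r) • q = 0 := by rw [sub_smul, one_smul, show r • q = q from hrq, sub_self]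
    rwa [hq, ← ofMul_zpow, ofMul_eq_zero] at h0

variable {x y : Kˣ}

/-- **Roots of unity**: by the unit equation only `1` is supported by a non-torsion element. -/
theorem SupportAE.eq_one_of_isOfFinOrder (h : SupportAE x y) (hx : ¬ IsOfFinOrder x)
    (hy : IsOfFinOrder y) : y = 1 := by
  by_contra hy1
  obtain ⟨B, hB, hxy⟩ := h
  obtain ⟨e, he⟩ : ∃ e : Kˣ, (e : K) = (y : K) - 1 :=
    ⟨Units.mk0 _ (sub_ne_zero.2 fun h1 => hy1 (Units.ext h1)), rfl⟩
  set S := B ∪ {v | ord v x ≠ 0} ∪ {v | ord v e ≠ 0}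
  have hS : S.Finite := (hB.union (finite_ord_ne_zero x)).union (finite_ord_ne_zero e)
  set d := orderOf y
  have hd : 0 < d := hy.orderOf_pos
  have hinj : Function.Injective fun t : ℕ => x ^ (d * t + 1) := fun s t hst => by
    have h1 := injective_pow_iff_not_isOfFinOrder.2 hx hst
    exact Nat.eq_of_mul_eq_mul_left hd (Nat.succ_injective h1)
  have hne : ∀ t : ℕ, (x : K) ^ (d * t + 1) - 1 ≠ 0 := fun t h0 => hx
    (isOfFinOrder_iff_pow_eq_one.2 ⟨d * t + 1, Nat.succ_pos _,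
      Units.ext (by rw [Units.val_pow_eq_pow_val, Units.val_one]; exact sub_eq_zero.1 h0)⟩)
  have hval : ∀ t : ℕ, ∀ v ∉ S, v.valuation K (x : K) = 1 ∧
      v.valuation K ((x : K) ^ (d * t + 1) - 1) = 1 := fun t v hv => by
    simp only [S, Set.mem_union, Set.mem_ofPred_eq, not_or, not_not] at hv
    obtain ⟨⟨hvB, hvx⟩, hve⟩ := hv
    have hx1 : v.valuation K (x : K) = 1 := by
      rw [(ord_eq_iff (v := v)).1 hvx, neg_zero, exp_zero]
    refine ⟨hx1, le_antisymm ?_ (not_lt.1 fun hlt => ?_)⟩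
    · exact (Valuation.map_sub _ _ _).trans (by rw [map_pow, hx1, one_pow, map_one, max_self])
    have h1 := hxy v hvB (d * t + 1) (mem_nearOne_zero_iff.2 (by
      rwa [Units.val_pow_eq_pow_val]))
    rw [pow_succ, pow_mul, pow_orderOf_eq_one, one_pow, one_mul, mem_nearOne_zero_iff, ← he,
      (ord_eq_iff (v := v)).1 hve, neg_zero, exp_zero] at h1
    exact lt_irrefl _ h1
  let P : ℕ → S.unit K × S.unit K := fun t =>
    (⟨x ^ (d * t + 1), fun v hv => by
      rw [Units.val_pow_eq_pow_val, map_pow, (hval t v hv).1, one_pow]⟩,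
     ⟨Units.mk0 _ (hne t), fun v hv => (hval t v hv).2⟩)
  exact Set.infinite_of_injective_forall_mem (f := P)
    (fun s t hst => hinj (congrArg (fun p : S.unit K × S.unit K => (p.1 : Kˣ)) hst))
    (fun t => by simp [P]) (FA.Roth.finite_sunit_equation hS one_ne_zero
      (neg_ne_zero.2 one_ne_zero) one_ne_zero)

/-- **One prime at a time.** -/
theorem SupportAE.exists_zpow_mem (h : SupportAE x y) (ℓ : ℕ) [hℓ : Fact ℓ.Prime] :
    ∃ (m a : ℤ) (ξ : Kˣ), ¬ (ℓ : ℤ) ∣ m ∧ IsOfFinOrder ξ ∧ y ^ m = x ^ a * ξ := by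
  classical
  set c := Module.finrank ℚ K
  set T := ((finite_ord_ne_zero x).union (finite_ord_ne_zero y)).toFinset
  have hxU : x ∈ tUnit T := fun v hv => by simp_all [T]
  have hyU : y ∈ tUnit T := fun v hv => by simp_all [T]
  have hroot : ∀ {N : ℕ} {w : Kˣ}, N ≠ 0 → w ^ N ∈ tUnit T → w ∈ tUnit T :=
    fun {N w} hN hw v hv => by
      have h1 := hw v hv
      rw [← zpow_natCast, ord_zpow] at h1
      simpa [hN] using h1
  set U := tUnit T
  set H : Subgroup U :=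
    (Subgroup.zpowers x ⊔ rootsOfUnity (ℓ ^ c) K).subgroupOf U
  have : Group.FG U := (Group.fg_iff_subgroup_fg _).2 (FA.GrunwaldWang.fg_tUnit T)
  have : Group.FG (U ⧸ H) := QuotientGroup.fg H
  obtain ⟨m, hm, h0⟩ := exists_zpow_eq_one hℓ.out (QuotientGroup.mk ⟨y, hyU⟩ : U ⧸ H) fun i => by
    obtain ⟨a, ξ, w, hξ, hy⟩ := h.exists_eq_mul ℓ (k := c + (i + 1)) (by omega)
    rw [Nat.add_sub_cancel_left] at hy
    have hξU : ξ ∈ U := hroot (pow_ne_zero c hℓ.out.ne_zero) (by rw [hξ]; exact one_mem _)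
    have hwU : w ∈ U := hroot (pow_ne_zero (i + 1) hℓ.out.ne_zero) (by
      rw [show w ^ ℓ ^ (i + 1) = (ξ * x ^ a)⁻¹ * y by rw [hy]; group]
      exact mul_mem (inv_mem (mul_mem hξU (zpow_mem hxU a))) hyU)
    refine ⟨QuotientGroup.mk ⟨w, hwU⟩, ?_⟩
    rw [← QuotientGroup.mk_pow]
    refine (QuotientGroup.eq_iff_div_mem).2 ?_
    show y / w ^ ℓ ^ (i + 1) ∈ Subgroup.zpowers x ⊔ rootsOfUnity (ℓ ^ c) K
    rw [hy, mul_div_cancel_right, mul_comm]
    exact Subgroup.mul_mem_sup (Subgroup.zpow_mem_zpowers x a) ((mem_rootsOfUnity' _ _).2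
      (by rw [← Units.val_pow_eq_pow_val, hξ, Units.val_one]))
  rw [← QuotientGroup.mk_zpow, QuotientGroup.eq_one_iff] at h0
  obtain ⟨_, ⟨a, rfl⟩, ξ, hξ, hy⟩ := Subgroup.mem_sup.1 h0
  exact ⟨m, a, ξ, hm, isOfFinOrder_iff_pow_eq_one.2
    ⟨ℓ ^ c, pow_pos hℓ.out.pos c, (mem_rootsOfUnity _ _).1 hξ⟩, hy.symm⟩

/-- **The support problem** (Corrales-Rodrigáñez–Schoof). -/
theorem SupportAE.exists_eq_zpow (h : SupportAE x y) : ∃ k : ℤ, y = x ^ k := by
  by_cases hx : IsOfFinOrder x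
  · have hyd : y ^ orderOf x = 1 := by
      obtain ⟨B, hB, hxy⟩ := h
      exact eq_one_of_ae hB fun v hv => hxy v hv _ (by rw [pow_orderOf_eq_one]; exact one_mem _)
    have : NeZero (orderOf x) := ⟨hx.orderOf_pos.ne'⟩
    obtain ⟨i, -, hi⟩ := ((IsPrimitiveRoot.coe_units_iff).2
      (IsPrimitiveRoot.orderOf x)).eq_pow_of_pow_eq_one (ξ := (y : K))
        (by rw [← Units.val_pow_eq_pow_val, hyd, Units.val_one])
    exact ⟨i, Units.ext (by rw [zpow_natCast, Units.val_pow_eq_pow_val, hi])⟩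
  suffices orderOf (QuotientGroup.mk y : Kˣ ⧸ Subgroup.zpowers x) = 1 by
    obtain ⟨k, hk⟩ := Subgroup.mem_zpowers_iff.1
      ((QuotientGroup.eq_one_iff y).1 (orderOf_eq_one_iff.1 this))
    exact ⟨k, hk.symm⟩
  by_contra hne
  obtain ⟨ℓ, hℓ, hdvd⟩ := Nat.exists_prime_and_dvd hne
  have : Fact ℓ.Prime := ⟨hℓ⟩
  obtain ⟨m, a, ξ, hm, hξ, hy⟩ := h.exists_zpow_mem ℓ
  obtain ⟨B, hB, hxy⟩ := h
  have hξ1 : ξ = 1 := SupportAE.eq_one_of_isOfFinOrder ⟨B, hB, fun v hv n hn => by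
    rw [show ξ = y ^ m / x ^ a by rw [hy, mul_div_cancel_left], div_pow, ← zpow_natCast (y ^ m),
      ← zpow_natCast (x ^ a), zpow_comm y, zpow_comm x, zpow_natCast, zpow_natCast]
    exact div_mem (zpow_mem (hxy v hv n hn) m) (zpow_mem hn a)⟩ hx hξ
  refine hm ((Int.natCast_dvd_natCast.2 hdvd).trans (orderOf_dvd_iff_zpow_eq_one.2 ?_))
  rw [← QuotientGroup.mk_zpow, QuotientGroup.eq_one_iff, hy, hξ1, mul_one]
  exact Subgroup.zpow_mem_zpowers x a

/-- Local powers give congruences. -/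
theorem SupportAE.of_local_powers {B : Set (HeightOneSpectrum (𝓞 K))} (hB : B.Finite)
    (h : ∀ v ∉ B, ∃ i : ℤ, y / x ^ i ∈ nearOne v 0) : SupportAE x y := by
  refine ⟨B, hB, fun v hv n hn => ?_⟩
  obtain ⟨i, hi⟩ := h v hv
  have h1 := mul_mem (pow_mem hi n) (zpow_mem hn i)
  rwa [div_pow, ← zpow_natCast (x ^ i), zpow_comm x, zpow_natCast, div_mul_cancel] at h1

/-- A power is supported. -/
theorem supportAE_zpow (x : Kˣ) (k : ℤ) : SupportAE x (x ^ k) :=
  SupportAE.of_local_powers Set.finite_empty fun v _ => ⟨k, by rw [div_self']; exact one_mem _⟩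

end FA.MultSupport

end
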