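import Fermat.Agent.LocalCFT.Residues

/-!
# Power residues at a prime

At a prime `Q` not dividing `N`, with the `N`-th roots of unity in the field, an element of order
`0` whose `(q - 1) / N`-th power is `1` modulo `Q` is congruent to an `N`-th power; congruences
to `1` at `k = 0` are the same below and above.
-/

set_option autoImplicit false
set_option linter.unusedSectionVars false

noncomputable section

open NumberField IsDedekindDomain WithZero
open FA.ArtinRec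
open FA.HasseCyclic (nearOne mem_nearOne)

namespace FA.MultSupport

variable {M : Type*} [Field M] [NumberField M] {Q : HeightOneSpectrum (𝓞 M)}

/-- Congruence of integers prime to `Q` in terms of the quotient. -/
theorem intU_div_mem_nearOne_iff {r s : 𝓞 M} (hr : r ≠ 0) (hs : s ≠ 0) (hsQ : s ∉ Q.asIdeal) :
    intU r hr / intU s hs ∈ nearOne Q 0 ↔
      Ideal.Quotient.mk Q.asIdeal r = Ideal.Quotient.mk Q.asIdeal s := by
  have h1 : Q.valuation M (s : M) = 1 := by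
    have h := (ord_intU_eq_zero_iff Q hs).2 hsQ
    rwa [ord_eq_iff, neg_zero, exp_zero, intU_val] at h
  rw [mem_nearOne, Units.val_div_eq_div_val, intU_val, intU_val,
    div_sub_one (RingOfIntegers.coe_ne_zero_iff.mpr hs), map_div₀, h1, div_one,
    Ideal.Quotient.eq, ← map_sub,
    show Q.valuation M ((r - s : 𝓞 M) : M) = Q.intValuation (r - s) from
      Q.valuation_of_algebraMap _, zero_add, Q.intValuation_le_pow_iff_mem, pow_one]

/-- An element of order `0` is congruent to an integer prime to `Q`. -/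
theorem exists_integer_congr {z : Mˣ} (hz : ord Q z = 0) :
    ∃ (r : 𝓞 M) (hr : r ≠ 0), r ∉ Q.asIdeal ∧ intU r hr / z ∈ nearOne Q 0 := by
  obtain ⟨r, hr⟩ := FA.HasseCyclic.exists_integer_near Q hz 0
  obtain ⟨hr0, hnear⟩ := hr r (by rw [sub_self]; exact zero_mem _)
  refine ⟨r, hr0, ?_, hnear⟩
  have h := FA.HasseCyclic.ord_eq_zero_of_nearOne hnear
  rw [ord_div, hz, sub_zero] at h
  exact (ord_intU_eq_zero_iff Q hr0).1 h

theorem intU_one : intU (1 : 𝓞 M) one_ne_zero = 1 := Units.ext (by simp)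

theorem intU_pow {r : 𝓞 M} (hr : r ≠ 0) (m : ℕ) :
    intU (r ^ m) (pow_ne_zero m hr) = intU r hr ^ m := Units.ext (by simp)

theorem pow_mem_nearOne_iff {z : Mˣ} {r : 𝓞 M} {hr : r ≠ 0}
    (h : intU r hr / z ∈ nearOne Q 0) (m : ℕ) :
    z ^ m ∈ nearOne Q 0 ↔ Ideal.Quotient.mk Q.asIdeal r ^ m = 1 := by
  rw [← map_pow, ← map_one (Ideal.Quotient.mk Q.asIdeal),
    ← intU_div_mem_nearOne_iff (pow_ne_zero m hr) one_ne_zero Q.isPrime.one_notMem, intU_pow,
    intU_one, div_one]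
  constructor
  · intro hz
    have h' := mul_mem (pow_mem h m) hz
    rwa [div_pow, div_mul_cancel] at h'
  · intro hz
    have h' := mul_mem (inv_mem (pow_mem h m)) hz
    rwa [div_pow, inv_div, div_mul_cancel] at h'

instance (Q : HeightOneSpectrum (𝓞 M)) : Finite (𝓞 M ⧸ Q.asIdeal) :=
  Ideal.finiteQuotientOfFreeOfNeBot _ Q.ne_bot

instance (Q : HeightOneSpectrum (𝓞 M)) : Finite (𝓞 M ⧸ Q.asIdeal)ˣ :=
  Finite.of_injective Units.val Units.val_injective

/-- **Fermat's little theorem at a prime.** -/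
theorem pow_card_units_mem_nearOne {z : Mˣ} (hz : ord Q z = 0) :
    z ^ Nat.card (𝓞 M ⧸ Q.asIdeal)ˣ ∈ nearOne Q 0 := by
  obtain ⟨r, hr, hrQ, hnear⟩ := exists_integer_congr hz
  rw [pow_mem_nearOne_iff hnear]
  have := Q.isMaximal
  let : Field (𝓞 M ⧸ Q.asIdeal) := Ideal.Quotient.field _
  obtain ⟨u, hu⟩ : IsUnit (Ideal.Quotient.mk Q.asIdeal r) :=
    isUnit_iff_ne_zero.2 fun h => hrQ (Ideal.Quotient.eq_zero_iff_mem.1 h)
  rw [← hu, ← Units.val_pow_eq_pow_val, pow_card_eq_one', Units.val_one]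

/-- The roots of unity of order prime to `Q` survive reduction. -/
theorem dvd_card_units {N : ℕ} [NeZero N] [HasEnoughRootsOfUnity M N]
    (hN : (N : 𝓞 M) ∉ Q.asIdeal) : N ∣ Nat.card (𝓞 M ⧸ Q.asIdeal)ˣ := by
  obtain ⟨ζ, hζ⟩ := HasEnoughRootsOfUnity.exists_primitiveRoot M N
  have := Q.isMaximal
  let : Field (𝓞 M ⧸ Q.asIdeal) := Ideal.Quotient.field _
  have hz := hζ.toInteger_isPrimitiveRoot
  have hne : ((N : ℕ) : 𝓞 M ⧸ Q.asIdeal) ≠ 0 := fun h => hN
    (Ideal.Quotient.eq_zero_iff_mem.1 (by rw [map_natCast]; exact h))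
  have : NeZero ((N : ℕ) : 𝓞 M ⧸ Q.asIdeal) := ⟨hne⟩
  have hroot : Polynomial.IsRoot (Polynomial.cyclotomic N (𝓞 M ⧸ Q.asIdeal))
      (Ideal.Quotient.mk Q.asIdeal hζ.toInteger) := by
    have h : Polynomial.IsRoot (Polynomial.cyclotomic N (𝓞 M)) hζ.toInteger :=
      hz.isRoot_cyclotomic (NeZero.pos N)
    simpa [Polynomial.map_cyclotomic] using h.map (f := Ideal.Quotient.mk Q.asIdeal)
  have hprim := Polynomial.isRoot_cyclotomic_iff.1 hroot
  obtain ⟨u, hu⟩ := hprim.isUnit (NeZero.ne N)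
  rw [← hu, IsPrimitiveRoot.coe_units_iff] at hprim
  rw [hprim.eq_orderOf]
  exact orderOf_dvd_natCard u

/-- **A power residue.** -/
theorem exists_pow_congr {N : ℕ} (hN : N ∣ Nat.card (𝓞 M ⧸ Q.asIdeal)ˣ) (hN0 : N ≠ 0) {z : Mˣ}
    (hz : ord Q z = 0) (h : z ^ (Nat.card (𝓞 M ⧸ Q.asIdeal)ˣ / N) ∈ nearOne Q 0) :
    ∃ c : Mˣ, z / c ^ N ∈ nearOne Q 0 := by
  obtain ⟨r, hr, hrQ, hnear⟩ := exists_integer_congr hz
  have hpow := (pow_mem_nearOne_iff hnear _).1 h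
  have := Q.isMaximal
  let : Field (𝓞 M ⧸ Q.asIdeal) := Ideal.Quotient.field _
  obtain ⟨u, hu⟩ : IsUnit (Ideal.Quotient.mk Q.asIdeal r) :=
    isUnit_iff_ne_zero.2 fun h => hrQ (Ideal.Quotient.eq_zero_iff_mem.1 h)
  rw [← hu, ← Units.val_pow_eq_pow_val, Units.val_eq_one] at hpow
  obtain ⟨g, hg⟩ := IsCyclic.exists_generator (α := (𝓞 M ⧸ Q.asIdeal)ˣ)
  obtain ⟨i, rfl⟩ := Subgroup.mem_zpowers_iff.1 (hg u)
  obtain ⟨m, hm⟩ := hN
  rw [hm, Nat.mul_div_cancel_left _ (Nat.pos_of_ne_zero hN0), ← zpow_natCast, ← zpow_mul,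
    ← orderOf_dvd_iff_zpow_eq_one, orderOf_eq_card_of_forall_mem_zpowers hg, hm, Nat.cast_mul]
    at hpow
  have hm0 : (m : ℤ) ≠ 0 := Int.natCast_ne_zero.2 fun h0 =>
    (Nat.card_pos (α := (𝓞 M ⧸ Q.asIdeal)ˣ)).ne' (by rw [hm, h0, mul_zero])
  obtain ⟨j, hj⟩ := Int.dvd_of_mul_dvd_mul_right hm0 hpow
  obtain ⟨C, hC⟩ := Ideal.Quotient.mk_surjective ((g ^ j : (𝓞 M ⧸ Q.asIdeal)ˣ) : 𝓞 M ⧸ Q.asIdeal)
  have hC0 : Ideal.Quotient.mk Q.asIdeal C ≠ 0 := hC ▸ Units.ne_zero _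
  have hCne : C ≠ 0 := fun h0 => hC0 (by rw [h0, map_zero])
  have hCQ : C ∉ Q.asIdeal := fun h0 => hC0 (Ideal.Quotient.eq_zero_iff_mem.2 h0)
  have hkey : intU r hr / intU (C ^ N) (pow_ne_zero N hCne) ∈ nearOne Q 0 :=
    (intU_div_mem_nearOne_iff _ _ fun h0 => hCQ (Q.isPrime.mem_of_pow_mem N h0)).2 (by
      rw [map_pow, hC, ← hu, ← Units.val_pow_eq_pow_val, ← zpow_natCast, ← zpow_mul, hj, mul_comm])
  refine ⟨intU C hCne, ?_⟩
  rw [intU_pow] at hkey
  have h' := mul_mem (inv_mem hnear) hkey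
  rwa [inv_div, div_mul_div_cancel] at h'

section base

variable {K : Type*} [Field K] [NumberField K] [Algebra K M]

/-- Congruence to `1` below and above. -/
theorem baseU_mem_nearOne_iff (a : Kˣ) :
    baseU (L := M) a ∈ nearOne Q 0 ↔ a ∈ nearOne (belowP K Q) 0 := by
  rw [mem_nearOne, mem_nearOne]
  by_cases h0 : (a : K) - 1 = 0
  · rw [baseU_val, sub_eq_zero.1 h0, map_one, sub_self, sub_self, map_zero, map_zero]
  obtain ⟨d, hd⟩ : ∃ d : Kˣ, (d : K) = (a : K) - 1 := ⟨Units.mk0 _ h0, rfl⟩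
  rw [baseU_val, ← map_one (algebraMap K M), ← map_sub, ← hd, ← baseU_val, valuation_eq_exp,
    valuation_eq_exp, exp_le_exp, exp_le_exp, ord_baseU]
  have he : (1 : ℤ) ≤ eIdx K Q := by exact_mod_cast eIdx_pos (K := K) Q
  push_cast
  constructor <;> intro h <;> nlinarith

end base

end FA.MultSupport

end
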